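import Fermat.Agent.DeligneSerre.X1.Kummer.Eval
import Fermat.Agent.ModCurve.Torsion.CharRoot

/-!
# Every character killing elliptic and parabolic elements is a Kummer multiplier
-/

set_option autoImplicit false
set_option linter.unusedSectionVars false

noncomputable section

open scoped MatrixGroups ModularForm Manifold Matrix
open UpperHalfPlane hiding I
open Filter Topology AlgebraicCurve EisensteinSeries

namespace FermatAgent.DeligneSerre.Curves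

open FermatAgent.ModCurve.Points (MeroGerm localMonodromy moeb_coe eventually_im_pos
  localMonodromy_M_eq_three localMonodromy_M_eq_two localMonodromy_M_eq_one)
open FermatAgent.ModFun (cuspRing jFun IsTame discriminant_mem_cuspRing isBounded_discriminant_pow
  isTame_iff discriminant_smul)
open FermatAgent.Periods (mob mob_mul mob_denom_ne_zero hasDerivAt_mob)
open FermatAgent.ModCurveTorsion (GermEq NowhereZero slMat det_slMat_pos mob_eq_moeb ofComplex_mob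
  mob_mem analyticAt_mob meromorphicOn_comp_mob nowhereZero_of_pow const_unique HasMultiplier
  rowEquiv pairSeries pairSeries_slash mdifferentiable_pairSeries isBoundedAtImInfty_pairSeries
  tendsto_pairSeries_atImInfty dvd_order_of_rotation trace_sq_le_four_of_fixed isBoundedAtImInfty_pow
  analyticAt_cuspFunction deriv_pow_eq_one_of_fixed isPreconnected_halfPlane)
open FermatAgent.DeligneSerre.X1 (levelRingOf)

local notation "ℍo" => UpperHalfPlane.upperHalfPlaneSet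
local notation "M₂" => Matrix (Fin 2) (Fin 2) ℤ
local notation "Z²" => (Fin 2 → ℤ)
local notation "Δ" => ModularForm.discriminant

/-- A unitary character killing elliptic and parabolic elements. -/
structure IsEPChar {Γ : Subgroup SL(2, ℤ)} (χ : Γ → ℂ) : Prop where
  map_mul : ∀ γ δ, χ (γ * δ) = χ γ * χ δ
  eq_one : ∀ γ : Γ, ((γ : SL(2, ℤ)) : Matrix (Fin 2) (Fin 2) ℤ).trace ^ 2 ≤ 4 → χ γ = 1
  norm_eq : ∀ γ, ‖χ γ‖ = 1

variable {Γ : Subgroup SL(2, ℤ)} [IsCurveGroup Γ]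

/-- Products of invariant functions of weight `k` over a power of `Δ` lie in the regular ring. -/
theorem mul_div_discriminant_mem_levelOf {k : ℤ} {g h : ℍ → ℂ} (hg : MDiff g) (hh : MDiff h)
    (hgi : ∀ γ ∈ Γ, g ∣[k] γ = g) (hhi : ∀ γ ∈ Γ, h ∣[k] γ = h)
    (hgb : ∀ A : SL(2, ℤ), IsBoundedAtImInfty (g ∣[k] A))
    (hhb : ∀ A : SL(2, ℤ), IsBoundedAtImInfty (h ∣[k] A)) :
    (fun τ : ℍ => g τ * h τ ^ 11 * Δ τ ^ (-k)) ∈ levelRingOf Γ := by
  have hk : ∀ τ : ℍ, Δ τ ≠ 0 := ModularForm.discriminant_ne_zero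
  have key : ∀ (γ : SL(2, ℤ)) (τ : ℍ),
      g (γ • τ) * h (γ • τ) ^ 11 * Δ (γ • τ) ^ (-k)
        = (g ∣[k] γ) τ * ((h ∣[k] γ) τ) ^ 11 * Δ τ ^ (-k) := by
    intro γ τ
    have hd : denom (γ : GL (Fin 2) ℝ) τ ≠ 0 := denom_ne_zero _ _
    rw [ModularForm.SL_slash_apply, ModularForm.SL_slash_apply, discriminant_smul, mul_pow,
      mul_zpow, ← zpow_natCast (denom _ _ ^ (-k)) 11, ← zpow_mul, ← zpow_mul]
    have h12 : denom (γ : GL (Fin 2) ℝ) τ ^ ((12 : ℤ) * -k)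
        = denom (γ : GL (Fin 2) ℝ) τ ^ (-k) * denom (γ : GL (Fin 2) ℝ) τ ^ (-k * (11 : ℕ)) := by
      rw [← zpow_add₀ hd]
      congr 1
      push_cast
      ring
    rw [h12]
    ring
  refine ⟨?_, fun γ hγ τ => ?_, fun γ => ?_⟩
  · rw [UpperHalfPlane.mdifferentiable_iff]
    refine ((UpperHalfPlane.mdifferentiable_iff.mp hg).mul
      ((UpperHalfPlane.mdifferentiable_iff.mp hh).pow 11)).mul ?_
    exact (UpperHalfPlane.mdifferentiable_iff.mp discriminant_mem_cuspRing.1).zpow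
      (Or.inl fun z _ => hk _)
  · simp only
    rw [key, hgi γ hγ, hhi γ hγ]
  · simp only [key]
    refine IsTame.mul (f := fun τ : ℍ => (g ∣[k] γ) τ * ((h ∣[k] γ) τ) ^ 11)
      (g := fun τ : ℍ => Δ τ ^ (-k)) (.of_bounded ?_) ?_
    · have hh : ∀ m : ℕ, IsBoundedAtImInfty ((h ∣[k] γ) ^ m) := fun m => by
        induction m with
        | zero => exact const_boundedAtFilter atImInfty (1 : ℂ)
        | succ m ih =>
          rw [pow_succ]
          exact ih.mul (hhb γ)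
      exact (hgb γ).mul (hh 11)
    · refine isTame_iff.mpr ⟨k.natAbs, ?_⟩
      obtain ⟨m, hm⟩ : ∃ m : ℕ, (m : ℤ) = -k + k.natAbs :=
        ⟨(-k + k.natAbs).toNat, Int.toNat_of_nonneg (by omega)⟩
      have : (fun τ : ℍ => Δ τ ^ (-k)) * Δ ^ k.natAbs = Δ ^ m := by
        ext τ
        simp only [Pi.mul_apply, Pi.pow_apply]
        rw [← zpow_natCast, ← zpow_natCast (Δ τ) m, ← zpow_add₀ (hk τ), hm]
      rw [this]
      exact isBounded_discriminant_pow m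

variable {χ : Γ → ℂ}

open scoped Classical in
/-- The coefficient attached to the bottom row of a matrix in `Γ`. -/
def rowCoeff {Γ : Subgroup SL(2, ℤ)} (χ : Γ → ℂ) (v : Z²) : ℂ :=
  if h : ∃ γ : Γ, ((γ : SL(2, ℤ)) : M₂) 1 = v then (χ h.choose)⁻¹
  else 0

namespace IsEPChar

theorem map_one (hχ : IsEPChar χ) : χ 1 = 1 := hχ.eq_one 1 (by simp)

theorem map_inv (hχ : IsEPChar χ) (γ : Γ) : χ γ⁻¹ = (χ γ)⁻¹ :=
  eq_inv_of_mul_eq_one_left (by rw [← hχ.map_mul, inv_mul_cancel, hχ.map_one])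

theorem apply_eq_of_row (hχ : IsEPChar χ) {γ δ : Γ}
    (h : ((γ : SL(2, ℤ)) : M₂) 1 =
      ((δ : SL(2, ℤ)) : M₂) 1) : χ γ = χ δ := by
  suffices χ (γ * δ⁻¹) = 1 by
    rw [hχ.map_mul, hχ.map_inv, mul_inv_eq_one₀] at this
    · exact this
    · intro h0
      simpa [h0] using hχ.norm_eq δ
  have hrow : ∀ j : Fin 2, (((γ * δ⁻¹ : Γ) : SL(2, ℤ)) : M₂) 1 j = (1 : M₂) 1 j := by
    intro j
    have h1 : ((δ : SL(2, ℤ)) : M₂) * (((δ : SL(2, ℤ))⁻¹ : SL(2, ℤ)) : M₂) = 1 :=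
      congrArg Subtype.val (mul_inv_cancel (δ : SL(2, ℤ)))
    rw [← h1]
    show (((γ : SL(2, ℤ)) : M₂) * (((δ : SL(2, ℤ))⁻¹ : SL(2, ℤ)) : M₂)) 1 j = _
    rw [Matrix.mul_apply, Matrix.mul_apply, h]
  refine hχ.eq_one _ (le_of_eq ?_)
  have hdet := (((γ * δ⁻¹ : Γ) : SL(2, ℤ))).det_coe
  rw [Matrix.det_fin_two, hrow 0, hrow 1] at hdet
  rw [Matrix.trace_fin_two, hrow 1]
  simp at hdet ⊢
  rw [hdet]
  norm_num

theorem rowCoeff_row (hχ : IsEPChar χ) (γ : Γ) :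
    rowCoeff χ (((γ : SL(2, ℤ)) : M₂) 1) = (χ γ)⁻¹ := by
  rw [rowCoeff, dif_pos ⟨γ, rfl⟩]
  exact congrArg _ (hχ.apply_eq_of_row (Exists.choose_spec
    (⟨γ, rfl⟩ : ∃ δ : Γ, ((δ : SL(2, ℤ)) : M₂) 1 = _)))

theorem norm_rowCoeff_le (hχ : IsEPChar χ) (v : Z²) : ‖rowCoeff χ v‖ ≤ 1 := by
  rw [rowCoeff]
  split
  · rw [norm_inv, hχ.norm_eq, inv_one]
  · simp

theorem rowCoeff_vecMul (hχ : IsEPChar χ) (v : Z²) (γ : Γ) :
    rowCoeff χ (v ᵥ* ((γ : SL(2, ℤ)) : M₂)) = rowCoeff χ v * (χ γ)⁻¹ := by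
  by_cases h : ∃ δ : Γ, ((δ : SL(2, ℤ)) : M₂) 1 = v
  · obtain ⟨δ, rfl⟩ := h
    have : (((δ : SL(2, ℤ)) : M₂) 1) ᵥ* ((γ : SL(2, ℤ)) : M₂) = (((δ * γ : Γ) : SL(2, ℤ)) : M₂) 1 := by
      ext j
      simp [Matrix.vecMul, dotProduct, Matrix.mul_apply]
    rw [this, hχ.rowCoeff_row, hχ.rowCoeff_row, hχ.map_mul, mul_inv]
  · have h' : ¬∃ δ : Γ, ((δ : SL(2, ℤ)) : M₂) 1 = v ᵥ* ((γ : SL(2, ℤ)) : M₂) := by
      rintro ⟨δ, hδ⟩
      refine h ⟨δ * γ⁻¹, ?_⟩
      have hrow : (((δ * γ⁻¹ : Γ) : SL(2, ℤ)) : M₂) 1 =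
          (((δ : SL(2, ℤ)) : M₂) 1) ᵥ* (((γ : SL(2, ℤ))⁻¹ : SL(2, ℤ)) : M₂) := by
        ext j
        simp [Matrix.vecMul, dotProduct, Matrix.mul_apply]
      rw [hrow, hδ]
      exact (rowEquiv (γ : SL(2, ℤ))).left_inv v
    rw [rowCoeff, rowCoeff, dif_neg h, dif_neg h', zero_mul]

/-- The twisted Eisenstein series. -/
def eis (_hχ : IsEPChar χ) : ℍ → ℂ := pairSeries (rowCoeff χ)

theorem eis_slash (hχ : IsEPChar χ) (γ : Γ) :
    hχ.eis ∣[(4 : ℤ)] (γ : SL(2, ℤ)) = χ γ • hχ.eis := by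
  rw [eis, pairSeries_slash]
  funext τ
  rw [Pi.smul_apply, smul_eq_mul, pairSeries, pairSeries, ← tsum_mul_left]
  refine tsum_congr fun v => ?_
  rw [← Subgroup.coe_inv, hχ.rowCoeff_vecMul v γ⁻¹, hχ.map_inv, inv_inv]
  ring

theorem eis_smul (hχ : IsEPChar χ) (γ : Γ) (τ : ℍ) :
    hχ.eis ((γ : SL(2, ℤ)) • τ) = χ γ * denom (γ : SL(2, ℤ)) τ ^ (4 : ℤ) * hχ.eis τ := by
  have h := congrFun (hχ.eis_slash γ) τ
  rw [ModularForm.SL_slash_apply, Pi.smul_apply, smul_eq_mul] at h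
  rw [mul_right_comm, ← h, mul_assoc, ← zpow_add₀ (denom_ne_zero _ τ)]
  norm_num

theorem mdifferentiable_eis (hχ : IsEPChar χ) : MDiff hχ.eis :=
  mdifferentiable_pairSeries hχ.norm_rowCoeff_le

theorem isBoundedAtImInfty_eis (hχ : IsEPChar χ) (A : SL(2, ℤ)) :
    IsBoundedAtImInfty (hχ.eis ∣[(4 : ℤ)] A) :=
  isBoundedAtImInfty_pairSeries hχ.norm_rowCoeff_le A

theorem exists_eis_ne_zero (hχ : IsEPChar χ) : ∃ τ : ℍ, hχ.eis τ ≠ 0 := by
  refine tendsto_pairSeries_atImInfty hχ.norm_rowCoeff_le ?_ ?_ fun d hd1 hd2 => ?_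
  · have := hχ.rowCoeff_row 1
    rw [hχ.map_one, inv_one] at this
    refine Eq.trans (congrArg _ ?_) this
    ext j; fin_cases j <;> simp
  · let m : Γ := ⟨-1, FermatAgent.ModCurveGroup.ContainsNegOne.neg_one_mem⟩
    have := hχ.rowCoeff_row m
    rw [hχ.eq_one m (by simp [m]), inv_one] at this
    refine Eq.trans (congrArg _ ?_) this
    ext j; fin_cases j <;> simp [m]
  · rw [rowCoeff, dif_neg]
    rintro ⟨γ, hγ⟩
    have h := (γ : SL(2, ℤ)).det_coe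
    rw [Matrix.det_fin_two, hγ] at h
    simp only [Matrix.cons_val_zero, Matrix.cons_val_one, mul_zero, sub_zero] at h
    rcases Int.mul_eq_one_iff_eq_one_or_neg_one.mp h with ⟨-, h'⟩ | ⟨-, h'⟩ <;> omega

theorem one : IsEPChar (1 : Γ → ℂ) where
  map_mul _ _ := by simp
  eq_one _ _ := rfl
  norm_eq _ := by simp

end IsEPChar


theorem isPrimitiveRoot_deriv_stabilizer (z : ℍ) (he : 1 < ellIndex Γ z) :
    ∃ γ : Γ, mob (slMat γ) (z : ℂ) = z ∧
      IsPrimitiveRoot (deriv (mob (slMat γ)) (z : ℂ)) (ellIndex Γ z) := by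
  set D := localMonodromy z with hD
  have hM : (ellIndex Γ z).Prime ∧ ellIndex Γ z = D.M := by
    have hdvd := ellIndex_dvd Γ z
    by_cases h0 : FermatAgent.ModFun.jFun z = 0
    · rw [localMonodromy_M_eq_three h0] at hdvd ⊢
      rcases (Nat.dvd_prime Nat.prime_three).mp hdvd with h | h
      · omega
      · exact ⟨h ▸ Nat.prime_three, h⟩
    · by_cases h1 : FermatAgent.ModFun.jFun z = 1728
      · rw [localMonodromy_M_eq_two h1] at hdvd ⊢
        rcases (Nat.dvd_prime Nat.prime_two).mp hdvd with h | h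
        · omega
        · exact ⟨h ▸ Nat.prime_two, h⟩
      · rw [localMonodromy_M_eq_one h0 h1] at hdvd
        have := Nat.le_of_dvd one_pos hdvd
        omega
  obtain ⟨hp, heM⟩ := hM
  have hram : (affineSheets Γ z).ram (baseCoset Γ) = 1 := by
    refine Nat.eq_of_mul_eq_mul_left (ellIndex_pos Γ z) ?_
    rw [ellIndex_mul_ram Γ z, mul_one, heM]
  have hmem : D.g ∈ Γ := by
    have h := (pow_mem_iff Γ z 1).mpr (by rw [hram])
    rwa [pow_one] at h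
  set γ : Γ := ⟨D.g, hmem⟩ with hγ
  have hfix : mob (slMat γ) (z : ℂ) = z := by
    rw [mob_eq_moeb D.g, moeb_coe, D.fix]
  have hpow : slMat (γ ^ ellIndex Γ z) = 1 ∨ slMat (γ ^ ellIndex Γ z) = -1 := by
    show ((D.g ^ ellIndex Γ z : SL(2, ℤ)) : M₂) = 1 ∨ ((D.g ^ ellIndex Γ z : SL(2, ℤ)) : M₂) = -1
    rw [heM]
    rcases D.pow_M with h | h <;> rw [h]
    · left; rfl
    · right; simp
  have : Fact (ellIndex Γ z).Prime := ⟨hp⟩
  refine ⟨γ, hfix, IsPrimitiveRoot.iff_orderOf.mpr (orderOf_eq_prime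
    (deriv_pow_eq_one_of_fixed z.2 hfix hpow) fun h1 => ?_)⟩
  have hg1 := D.min 1 one_pos (heM ▸ hp.one_lt)
  rw [pow_one] at hg1
  have hdet : (D.g : M₂).det ≠ 0 := by simp
  rw [(hasDerivAt_mob _ hdet z.2).deriv] at h1
  -- derivative one forces a translation
  have hcd : ((((D.g : M₂) 1 0 : ℤ) : ℂ) * z + (((D.g : M₂) 1 1 : ℤ) : ℂ)) ^ 2 = 1 := by
    have h2 := mob_denom_ne_zero (D.g : M₂) hdet z.2
    rw [div_eq_iff (pow_ne_zero _ h2), one_mul] at h1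
    rw [← h1]
    simp
  have hc : (D.g : M₂) 1 0 = 0 := by
    rcases sq_eq_one_iff.mp hcd with h | h <;>
    · have := congrArg Complex.im h
      simp at this
      rcases this with h' | h'
      · exact_mod_cast h'
      · exact absurd h' z.im_pos.ne'
  have hdet1 := D.g.det_coe
  rw [Matrix.det_fin_two, hc, mul_zero, sub_zero] at hdet1
  have hb : (D.g : M₂) 0 1 = 0 := by
    have h2 := hfix
    simp only [mob, hγ, slMat, hc, Int.cast_zero, zero_mul, zero_add] at h2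
    rcases Int.mul_eq_one_iff_eq_one_or_neg_one.mp hdet1 with ⟨ha, hd⟩ | ⟨ha, hd⟩ <;>
      rw [ha, hd] at h2 <;> simp [div_neg] at h2 <;> exact h2
  rcases Int.mul_eq_one_iff_eq_one_or_neg_one.mp hdet1 with ⟨ha, hd⟩ | ⟨ha, hd⟩
  · refine hg1.1 (Matrix.SpecialLinearGroup.ext _ _ fun i j => ?_)
    fin_cases i <;> fin_cases j <;> simp [ha, hb, hc, hd]
  · refine hg1.2 (Matrix.SpecialLinearGroup.ext _ _ fun i j => ?_)
    fin_cases i <;> fin_cases j <;> simp [ha, hb, hc, hd]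


namespace IsEPChar

theorem eisPow_slash (hχ : IsEPChar χ) {n : ℕ} (hχn : ∀ γ, χ γ ^ n = 1) {A : SL(2, ℤ)}
    (hA : A ∈ Γ) : (fun τ => hχ.eis τ ^ n) ∣[(4 * n : ℤ)] A = fun τ => hχ.eis τ ^ n := by
  funext τ
  have h := hχ.eis_smul ⟨A, hA⟩ τ
  simp only [ModularForm.SL_slash_apply, h, mul_pow, hχn, one_mul]
  rw [← zpow_natCast (denom (A : GL (Fin 2) ℝ) τ ^ (4 : ℤ)) n, ← zpow_mul,
    mul_right_comm, ← zpow_add₀ (denom_ne_zero _ τ)]
  simp

theorem isBoundedAtImInfty_eisPow (hχ : IsEPChar χ) (n : ℕ) (A : SL(2, ℤ)) :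
    IsBoundedAtImInfty ((fun τ => hχ.eis τ ^ n) ∣[(4 * n : ℤ)] A) := by
  have h : (fun τ => hχ.eis τ ^ n) ∣[(4 * n : ℤ)] A = fun τ => (hχ.eis ∣[(4 : ℤ)] A) τ ^ n := by
    funext τ
    simp only [ModularForm.SL_slash_apply, mul_pow]
    rw [← zpow_natCast (denom (A : GL (Fin 2) ℝ) τ ^ (-4 : ℤ)) n, ← zpow_mul, neg_mul]
  rw [h]
  exact isBoundedAtImInfty_pow (hχ.isBoundedAtImInfty_eis A) n

theorem eisPow_quot_mem (hχ : IsEPChar χ) {ψ : Γ → ℂ} (hψ : IsEPChar ψ) {n : ℕ}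
    (hχn : ∀ γ, χ γ ^ n = 1) (hψn : ∀ γ, ψ γ ^ n = 1) :
    (fun τ : ℍ => hχ.eis τ ^ n * (hψ.eis τ ^ n) ^ 11 * Δ τ ^ (-(4 * n : ℤ))) ∈ levelRingOf Γ :=
  mul_div_discriminant_mem_levelOf (hχ.mdifferentiable_eis.pow n) (hψ.mdifferentiable_eis.pow n)
    (fun _ hA => hχ.eisPow_slash hχn hA) (fun _ hA => hψ.eisPow_slash hψn hA)
    (hχ.isBoundedAtImInfty_eisPow n) (hψ.isBoundedAtImInfty_eisPow n)

/-- The quotient `E_χ / E_1` on the complex plane. -/
def eisQuot (hχ : IsEPChar χ) : ℂ → ℂ :=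
  (↑ₕhχ.eis) / (↑ₕ(IsEPChar.one (Γ := Γ)).eis)

theorem analyticAt_eis (hχ : IsEPChar χ) {z : ℂ} (hz : z ∈ ℍo) : AnalyticAt ℂ (↑ₕhχ.eis) z :=
  DifferentiableOn.analyticAt (UpperHalfPlane.mdifferentiable_iff.mp hχ.mdifferentiable_eis)
    (UpperHalfPlane.isOpen_upperHalfPlaneSet.mem_nhds hz)

theorem nowhereZero_eis (hχ : IsEPChar χ) : NowhereZero (↑ₕhχ.eis) := by
  intro z hz
  obtain ⟨τ, hτ⟩ := hχ.exists_eis_ne_zero
  refine MeromorphicOn.meromorphicOrderAt_ne_top_of_isPreconnected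
    (fun w hw => (hχ.analyticAt_eis hw).meromorphicAt) isPreconnected_halfPlane
    (τ.2 : (τ : ℂ) ∈ ℍo) hz ?_
  rw [(hχ.analyticAt_eis τ.2).meromorphicOrderAt_eq,
    (hχ.analyticAt_eis τ.2).analyticOrderAt_eq_zero.mpr (by simpa using hτ)]
  simp

theorem meromorphicOn_eisQuot (hχ : IsEPChar χ) : MeromorphicOn hχ.eisQuot ℍo :=
  fun _ hz => (hχ.analyticAt_eis hz).meromorphicAt.div (IsEPChar.one.analyticAt_eis hz).meromorphicAt

theorem eisQuot_mob (hχ : IsEPChar χ) (γ : Γ) {w : ℂ} (hw : w ∈ ℍo) :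
    hχ.eisQuot (mob (slMat γ) w) = χ γ * hχ.eisQuot w := by
  simp only [eisQuot, Pi.div_apply, Function.comp_apply, slMat,
    ofComplex_mob (γ : SL(2, ℤ)) (show 0 < w.im from hw), hχ.eis_smul γ,
    IsEPChar.one.eis_smul γ, Pi.one_apply]
  have hd := zpow_ne_zero (4 : ℤ) (denom_ne_zero ((γ : SL(2, ℤ)) : GL (Fin 2) ℝ) (ofComplex w))
  field_simp

theorem hasMultiplier_eisQuot (hχ : IsEPChar χ) : HasMultiplier hχ.eisQuot χ :=
  fun γ => GermEq.of_eqOn fun _ hw => hχ.eisQuot_mob γ hw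

theorem exists_evalFun_eq_eisQuot_pow (hχ : IsEPChar χ) {n : ℕ} (hχn : ∀ γ, χ γ ^ n = 1) :
    ∃ f : FieldOf Γ, f ≠ 0 ∧ GermEq (hχ.eisQuot ^ n) (evalFun f) := by
  set one' := IsEPChar.one (Γ := Γ)
  have h1n : ∀ γ : Γ, (1 : Γ → ℂ) γ ^ n = 1 := fun _ => one_pow n
  set u : levelRingOf Γ := ⟨_, hχ.eisPow_quot_mem one' hχn h1n⟩ with hu
  set v : levelRingOf Γ := ⟨_, one'.eisPow_quot_mem one' h1n h1n⟩ with hv
  have hne : ∀ {ψ : Γ → ℂ} (hψ : IsEPChar ψ) {z : ℂ}, z ∈ ℍo →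
      ∀ᶠ w in 𝓝[≠] z, (↑ₕhψ.eis) w ≠ 0 := fun hψ z hz =>
    hψ.nowhereZero_eis.eventually_ne (fun w hw => (hψ.analyticAt_eis hw).meromorphicAt) hz
  have hΔ : ∀ τ : ℍ, ModularForm.discriminant τ ^ (-(4 * n : ℤ)) ≠ 0 := fun τ =>
    zpow_ne_zero _ (ModularForm.discriminant_ne_zero τ)
  have hquot : GermEq (hχ.eisQuot ^ n) (((u : ℍ → ℂ) ∘ ofComplex) / ((v : ℍ → ℂ) ∘ ofComplex)) := by
    intro z hz
    filter_upwards [hne one' hz] with w hw
    simp only [eisQuot, Pi.pow_apply, Pi.div_apply, Function.comp_apply, hu, hv] at hw ⊢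
    show _ = hχ.eis (ofComplex w) ^ n * _ * _ / (one'.eis (ofComplex w) ^ n * _ * _)
    rw [mul_assoc, mul_assoc, mul_div_mul_right, div_pow]
    exact mul_ne_zero (pow_ne_zero _ (pow_ne_zero _ hw)) (hΔ _)
  have hv0 : toField Γ v ≠ 0 := by
    intro h0
    have hI : Complex.I ∈ ℍo := show 0 < Complex.I.im by simp
    obtain ⟨w, h1, h2, h3⟩ := ((hne one' hI).and ((evalFun_toField v _ hI).and
      (evalFun_algebraMap (Γ := Γ) 0 _ hI))).exists
    rw [h0] at h2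
    rw [map_zero, h2] at h3
    simp only [hv, evalC, one_smul, Function.comp_apply] at h1 h3
    exact mul_ne_zero (mul_ne_zero (pow_ne_zero n h1) (pow_ne_zero 11 (pow_ne_zero n h1)))
      (hΔ _) h3
  have hfg : GermEq (hχ.eisQuot ^ n) (evalFun (toField Γ u / toField Γ v)) := by
    refine hquot.trans ?_
    rw [div_eq_mul_inv, div_eq_mul_inv]
    intro z hz
    filter_upwards [evalFun_mul (toField Γ u) (toField Γ v)⁻¹ z hz,
      evalFun_inv (toField Γ v) z hz, evalFun_toField u z hz,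
      evalFun_toField v z hz] with w e1 e2 e3 e4
    simp only [Pi.mul_apply, Pi.inv_apply] at e1 e2 ⊢
    rw [e1, e2, e3, e4]
    simp only [Function.comp_apply, evalC, one_smul]
  refine ⟨_, ?_, hfg⟩
  intro h0
  rw [h0] at hfg
  have hI : Complex.I ∈ ℍo := show 0 < Complex.I.im by simp
  obtain ⟨w, h1, h2, h3, h4⟩ := ((hne hχ hI).and ((hne one' hI).and ((hfg _ hI).and
    (evalFun_algebraMap (Γ := Γ) 0 _ hI)))).exists
  rw [map_zero] at h4
  rw [h4, Pi.pow_apply] at h3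
  exact pow_ne_zero n (div_ne_zero h1 h2) h3

theorem dvd_ord_pointPlace (hχ : IsEPChar χ) {n : ℕ} (hn : n ≠ 0) {f : FieldOf Γ} (hf : f ≠ 0)
    (hfg : GermEq (hχ.eisQuot ^ n) (evalFun f)) (z : ℍ) :
    (n : ℤ) ∣ (pointPlace Γ z).ord f := by
  obtain ⟨k, hk⟩ := WithTop.ne_top_iff_exists.mp
    (nowhereZero_of_pow hn hfg (nowhereZero_evalFun hf) _ z.2)
  have h1 : meromorphicOrderAt (hχ.eisQuot ^ n) (z : ℂ) =
      ((ellIndex Γ z * (pointPlace Γ z).ord f : ℤ) : WithTop ℤ) := by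
    rw [meromorphicOrderAt_congr (hfg _ z.2), meromorphicOrderAt_evalFun hf]
  rw [meromorphicOrderAt_pow (hχ.meromorphicOn_eisQuot _ z.2), ← hk] at h1
  norm_cast at h1
  have he : (ellIndex Γ z : ℤ) ∣ k := by
    rcases lt_or_eq_of_le (Nat.one_le_iff_ne_zero.mpr (ellIndex_pos Γ z).ne') with he | he
    · obtain ⟨γ, hfix, hprim⟩ := isPrimitiveRoot_deriv_stabilizer z he
      have hγ : χ γ = 1 := by
        refine hχ.eq_one γ ?_
        have h4 : (slMat γ).trace ^ 2 < 4 ∨ (slMat γ).trace ^ 2 = 4 ∨ 4 < (slMat γ).trace ^ 2 :=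
          lt_trichotomy _ _
        rcases h4 with h | h | h
        · exact h.le
        · exact h.le
        · exfalso
          exact absurd h (not_lt.mpr (trace_sq_le_four_of_fixed (γ : SL(2, ℤ)) z.2 hfix))
      refine dvd_order_of_rotation (hχ.meromorphicOn_eisQuot _ z.2) hk.symm
        (analyticAt_mob (det_slMat_pos γ) z.2) hfix hprim (ellIndex_pos Γ z).ne' ?_
      have h5 := hχ.hasMultiplier_eisQuot γ (z : ℂ) z.2
      simp only [hγ, one_mul] at h5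
      exact h5
    · rw [← he]; exact one_dvd k
  obtain ⟨k', rfl⟩ := he
  refine ⟨k', mul_left_cancel₀ (Nat.cast_ne_zero.mpr (ellIndex_pos Γ z).ne' : (ellIndex Γ z : ℤ) ≠ 0) ?_⟩
  linarith

theorem slash_periodic (hχ : IsEPChar χ) (δ : SL(2, ℤ)) :
    Function.Periodic (↑ₕ(hχ.eis ∣[(4 : ℤ)] δ)) ((cuspWidth Γ δ : ℝ) : ℂ) := by
  intro w
  by_cases hw : 0 < w.im
  swap
  · have hw' : (w + ((cuspWidth Γ δ : ℝ) : ℂ)).im ≤ 0 := by simpa using not_lt.mp hw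
    simp only [Function.comp_apply, ofComplex_apply_of_im_nonpos hw',
      ofComplex_apply_of_im_nonpos (not_lt.mp hw)]
  set τ := ofComplex w
  have hmem : δ * ModularGroup.T ^ cuspWidth Γ δ * δ⁻¹ ∈ Γ :=
    (conj_T_pow_mem_iff Γ δ _).mpr dvd_rfl
  have htr := FermatAgent.ModCurveGroup.trace_conj_SL (ModularGroup.T ^ cuspWidth Γ δ) δ⁻¹
  rw [inv_inv, ← zpow_natCast, FermatAgent.ModCurveGroup.trace_T_zpow, zpow_natCast] at htr
  have hone : χ ⟨_, hmem⟩ = 1 := hχ.eq_one _ (by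
    show ((δ * ModularGroup.T ^ cuspWidth Γ δ * δ⁻¹ : SL(2, ℤ)) : M₂).trace ^ 2 ≤ 4
    rw [htr]
    norm_num)
  have hT : ofComplex (w + ((cuspWidth Γ δ : ℝ) : ℂ)) = ModularGroup.T ^ cuspWidth Γ δ • τ := by
    rw [← zpow_natCast, UpperHalfPlane.modular_T_zpow_smul]
    apply UpperHalfPlane.ext
    rw [ofComplex_apply_of_im_pos (by simpa using hw)]
    simp only [τ, ofComplex_apply_of_im_pos hw, UpperHalfPlane.coe_vadd]
    push_cast
    ring
  have hs : (hχ.eis ∣[(4 : ℤ)] δ) ∣[(4 : ℤ)] (ModularGroup.T ^ cuspWidth Γ δ) = hχ.eis ∣[(4 : ℤ)] δ := by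
    rw [← SlashAction.slash_mul, show δ * ModularGroup.T ^ cuspWidth Γ δ =
      (δ * ModularGroup.T ^ cuspWidth Γ δ * δ⁻¹) * δ by group, SlashAction.slash_mul,
      hχ.eis_slash ⟨_, hmem⟩, hone, one_smul]
  have h := congrFun hs τ
  rw [ModularForm.SL_slash_apply] at h
  have hd : denom ((ModularGroup.T ^ cuspWidth Γ δ : SL(2, ℤ)) : GL (Fin 2) ℝ) τ = 1 := by
    rw [ModularGroup.denom_apply, ← zpow_natCast, ModularGroup.coe_T_zpow]
    simp
  rw [hd, one_zpow, mul_one] at h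
  rw [Function.comp_apply, hT, h]
  rfl

theorem dvd_ord_cuspPlace (hχ : IsEPChar χ) {n : ℕ} (hn : n ≠ 0) {f : FieldOf Γ} (hf : f ≠ 0)
    (hfg : GermEq (hχ.eisQuot ^ n) (evalFun f)) (δ : SL(2, ℤ)) :
    (n : ℤ) ∣ (cuspPlace Γ δ).ord f := by
  set one' := IsEPChar.one (Γ := Γ)
  set w : ℝ := (cuspWidth Γ δ : ℝ) with hwdef
  have hw : 0 < w := Nat.cast_pos.mpr (cuspWidth_pos Γ δ)
  obtain ⟨K, hK⟩ := cuspWidth_dvd Γ δ
  have hK0 : K ≠ 0 := fun h => NeZero.ne (cuspPeriod Γ) (by rw [hK, h, mul_zero])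
  have han : ∀ {ψ : Γ → ℂ} (hψ : IsEPChar ψ),
      AnalyticAt ℂ (Function.Periodic.cuspFunction w (↑ₕ(hψ.eis ∣[(4 : ℤ)] δ))) 0 := fun hψ =>
    analyticAt_cuspFunction hw (hψ.slash_periodic δ) (hψ.mdifferentiable_eis.slash _ _)
      (hψ.isBoundedAtImInfty_eis δ)
  have hval : ∀ {ψ : Γ → ℂ} (hψ : IsEPChar ψ) {z : ℂ}, 0 < z.im →
      Function.Periodic.cuspFunction w (↑ₕ(hψ.eis ∣[(4 : ℤ)] δ)) (Function.Periodic.qParam w z) =
        hψ.eis (δ • ofComplex z) * denom (δ : GL (Fin 2) ℝ) (ofComplex z) ^ (-4 : ℤ) := fun hψ z hz => by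
    rw [Function.Periodic.eq_cuspFunction hw.ne' (hψ.slash_periodic δ), Function.comp_apply,
      ModularForm.SL_slash_apply]
  set A := Function.Periodic.cuspFunction w (↑ₕ(hχ.eis ∣[(4 : ℤ)] δ))
  set B := Function.Periodic.cuspFunction w (↑ₕ(one'.eis ∣[(4 : ℤ)] δ))
  set G := evalAtCusp δ f
  have hN : (0 : ℝ) < cuspPeriod Γ := Nat.cast_pos.mpr (NeZero.pos (cuspPeriod Γ))
  have hGAB : ∀ᶠ q in 𝓝[≠] (0 : ℂ), G q = ((A / B) (q ^ K)) ^ n := by
    -- pull back the identity `hⁿ = f` along `δ`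
    have hmero : MeromorphicAt (fun q : ℂ => G q - ((A / B) (q ^ K)) ^ n) 0 := by
      refine (meromorphicAt_evalAtCusp δ f).sub (MeromorphicAt.pow ?_ n)
      have hp : AnalyticAt ℂ (fun q : ℂ => q ^ K) 0 := analyticAt_id.pow K
      refine MeromorphicAt.comp_analyticAt (f := A / B) ?_ hp
      simpa [zero_pow hK0] using (han hχ).meromorphicAt.div (han one').meromorphicAt
    rcases hmero.eventually_eq_zero_or_eventually_ne_zero with h | h
    · filter_upwards [h] with q hq using sub_eq_zero.mp hq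
    exfalso
    obtain ⟨r, hr, hball⟩ := Metric.eventually_nhds_iff_ball.mp (eventually_nhdsWithin_iff.mp h)
    obtain ⟨Y, hY0, hY⟩ : ∃ Y : ℝ, 0 < Y ∧ ∀ z : ℂ, Y ≤ z.im →
        Function.Periodic.qParam (cuspPeriod Γ : ℝ) z ∈ Metric.ball (0 : ℂ) r := by
      refine ⟨max 1 (-cuspPeriod Γ * Real.log r / (2 * Real.pi) + 1), lt_max_of_lt_left one_pos, fun z hz => ?_⟩
      rw [mem_ball_zero_iff, Function.Periodic.norm_qParam, ← Real.lt_log_iff_exp_lt hr,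
        div_lt_iff₀ hN]
      have hz' : -cuspPeriod Γ * Real.log r / (2 * Real.pi) < z.im := by
        linarith [le_max_right (1 : ℝ) (-cuspPeriod Γ * Real.log r / (2 * Real.pi) + 1)]
      rw [div_lt_iff₀ (by positivity)] at hz'
      linarith
    set z₀ : ℂ := ((Y + 1 : ℝ) : ℂ) * Complex.I
    have hz₀ : 0 < z₀.im := by simp [z₀]; linarith
    have hdet : 0 < (δ : M₂).det := by simp
    obtain ⟨z, hzY, h1, h2⟩ := ((((isOpen_lt continuous_const Complex.continuous_im).eventually_mem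
      (show z₀ ∈ {z : ℂ | Y < z.im} by simp [z₀])).filter_mono nhdsWithin_le_nhds).and
      (((hfg.comp_mob hdet) z₀ hz₀).and
        ((one'.nowhereZero_eis.comp_mob hdet).eventually_ne
          (meromorphicOn_comp_mob (fun w hw => (one'.analyticAt_eis hw).meromorphicAt) hdet) hz₀))).exists
    have hz : 0 < z.im := hY0.trans hzY
    refine (hball _ (hY z (le_of_lt hzY))) (Function.Periodic.qParam_ne_zero z) ?_
    have hqK : Function.Periodic.qParam (cuspPeriod Γ : ℝ) z ^ K = Function.Periodic.qParam w z := by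
      rw [Function.Periodic.qParam, Function.Periodic.qParam, ← Complex.exp_nat_mul, hwdef]
      congr 1
      push_cast
      have hNK : (cuspPeriod Γ : ℂ) = (cuspWidth Γ δ : ℂ) * K := by exact_mod_cast hK
      rw [hNK]
      have : (K : ℂ) ≠ 0 := Nat.cast_ne_zero.mpr hK0
      have : (cuspWidth Γ δ : ℂ) ≠ 0 := Nat.cast_ne_zero.mpr (cuspWidth_pos Γ δ).ne'
      field_simp
    rw [hqK, show G (Function.Periodic.qParam (cuspPeriod Γ : ℝ) z) = _ from
      (evalFun_mob_eq_evalAtCusp δ f hz).symm, Pi.div_apply,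
      show A (Function.Periodic.qParam w z) = _ from hval hχ hz,
      show B (Function.Periodic.qParam w z) = _ from hval one' hz]
    simp only [eisQuot, Function.comp_apply, Pi.pow_apply, Pi.div_apply, ofComplex_mob δ hz] at h1 h2
    rw [← h1, mul_div_mul_right _ _ (zpow_ne_zero _ (denom_ne_zero _ _)), sub_self]
  have hAB : MeromorphicAt (A / B) 0 := (han hχ).meromorphicAt.div (han one').meromorphicAt
  have htend : Tendsto (fun q : ℂ => q ^ K) (𝓝[≠] 0) (𝓝[≠] 0) := by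
    refine tendsto_nhdsWithin_iff.mpr ⟨?_, ?_⟩
    · simpa [zero_pow hK0] using tendsto_nhdsWithin_of_tendsto_nhds
        ((continuous_pow K).tendsto (0 : ℂ))
    · filter_upwards [self_mem_nhdsWithin] with q hq using pow_ne_zero K hq
  have hord : ∃ m : ℤ, ordCusp Γ δ f = (K : ℤ) * ((n : ℤ) * m) := by
    by_cases htop : meromorphicOrderAt (A / B) 0 = ⊤
    · exfalso
      have hG : meromorphicOrderAt G 0 = ⊤ := by
        rw [meromorphicOrderAt_eq_top_iff]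
        filter_upwards [hGAB, htend.eventually (meromorphicOrderAt_eq_top_iff.mp htop)] with q h1 h2
        rw [h1, h2, zero_pow hn]
      rw [meromorphicOrderAt_evalAtCusp δ hf] at hG
      exact WithTop.coe_ne_top hG
    obtain ⟨m, hm⟩ := WithTop.ne_top_iff_exists.mp htop
    obtain ⟨u, hu, hu0, hev⟩ := (meromorphicOrderAt_eq_int_iff hAB).mp hm.symm
    simp only [sub_zero, smul_eq_mul] at hev
    refine ⟨m, ?_⟩
    have hG : meromorphicOrderAt G 0 = (((K : ℤ) * ((n : ℤ) * m) : ℤ) : WithTop ℤ) := by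
      rw [meromorphicOrderAt_eq_int_iff (meromorphicAt_evalAtCusp δ f)]
      refine ⟨fun q => u (q ^ K) ^ n, ((hu.comp_of_eq (analyticAt_id.pow K)
        (by simp [zero_pow hK0]))).pow n, pow_ne_zero n (by simpa [zero_pow hK0] using hu0), ?_⟩
      filter_upwards [hGAB, htend.eventually hev] with q h1 h2
      simp only [sub_zero, smul_eq_mul]
      rw [show evalAtCusp δ f q = _ from h1, h2, mul_pow, ← zpow_natCast q K, ← zpow_mul, ← zpow_natCast (q ^ (_ : ℤ)) n, ← zpow_mul,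
        mul_assoc (K : ℤ) m, mul_comm m (n : ℤ)]
    rw [meromorphicOrderAt_evalAtCusp δ hf] at hG
    exact_mod_cast hG
  obtain ⟨m, hm⟩ := hord
  refine ⟨m, mul_left_cancel₀ (NeZero.ne (cuspPeriod Γ : ℤ)) ?_⟩
  rw [← ordCusp_eq, hm]
  have hK' : (cuspPeriod Γ : ℤ) = (cuspWidth Γ δ : ℤ) * K := by exact_mod_cast hK
  linear_combination (-((n : ℤ) * m)) * hK'

/-- Every character killing elliptic and parabolic elements of order dividing `n` is the
multiplier of a root of a function all of whose orders are divisible by `n`. -/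
theorem exists_kummerMult (hχ : IsEPChar χ) {n : ℕ} (hn : n ≠ 0) (hχn : ∀ γ, χ γ ^ n = 1) :
    ∃ (f : FieldOf Γ) (g : ℂ → ℂ), f ≠ 0 ∧ (∀ v : Place ℂ (FieldOf Γ), (n : ℤ) ∣ v.ord f) ∧
      MeromorphicOn g ℍo ∧ GermEq (g ^ n) (evalFun f) ∧ HasMultiplier g χ := by
  obtain ⟨f, hf, hfg⟩ := hχ.exists_evalFun_eq_eisQuot_pow hχn
  refine ⟨f, hχ.eisQuot, hf, fun v => ?_, hχ.meromorphicOn_eisQuot, hfg, hχ.hasMultiplier_eisQuot⟩
  rcases exists_point_or_cusp Γ v with ⟨z, rfl⟩ | ⟨δ, rfl⟩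
  · exact hχ.dvd_ord_pointPlace hn hf hfg z
  · exact hχ.dvd_ord_cuspPlace hn hf hfg δ

end IsEPChar

end FermatAgent.DeligneSerre.Curves
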