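import Fermat.Agent.DeligneSerre.X1.Kummer.Eval
import Fermat.Agent.ModCurve.Torsion.KillsElliptic

/-!
# The multiplier of an `n`-th root is trivial on elliptic and parabolic elements
-/

set_option autoImplicit false

noncomputable section

open scoped MatrixGroups Manifold
open UpperHalfPlane hiding I
open Filter Topology Function AlgebraicCurve

namespace FermatAgent.DeligneSerre.Curves

open FermatAgent.ModCurve.Points (MeroGerm localMonodromy moeb_coe eventually_im_pos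
  localMonodromy_M_eq_three localMonodromy_M_eq_two localMonodromy_M_eq_one)
open FermatAgent.ModFun (cuspRing jFun IsTame qLaurentHom)
open FermatAgent.Periods (mob mob_mul)
open FermatAgent.ModCurveTorsion (GermEq NowhereZero slMat det_slMat_pos mob_eq_moeb ofComplex_mob
  mob_mem analyticAt_mob meromorphicOn_comp_mob nowhereZero_of_pow germEq_comp_mob_mul const_unique
  mob_neg mob_one HasMultiplier exists_fixed_point_of_trace_sq_lt root_translate_eq)
open FermatAgent.DeligneSerre.X1 (levelRingOf)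

local notation "ℍo" => UpperHalfPlane.upperHalfPlaneSet
local notation "M₂" => Matrix (Fin 2) (Fin 2) ℤ

variable {Γ : Subgroup SL(2, ℤ)} [IsCurveGroup Γ]

/-- `g` is an `n`-th root of `f`, whose divisor is `n` times something. -/
structure KummerRoot (n : ℕ) (D : Divisor ℂ (FieldOf Γ)) (f : FieldOf Γ) (g : ℂ → ℂ) : Prop where
  ne_zero : f ≠ 0
  ord_eq : ∀ v : Place ℂ (FieldOf Γ), v.ord f = (n : ℤ) * D v
  mero : MeromorphicOn g ℍo
  pow_eq : GermEq (g ^ n) (evalFun f)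

namespace KummerRoot

variable {n : ℕ} {D : Divisor ℂ (FieldOf Γ)} {f : FieldOf Γ} {g : ℂ → ℂ}

theorem nowhereZero (h : KummerRoot n D f g) (hn : n ≠ 0) : NowhereZero g :=
  nowhereZero_of_pow hn h.pow_eq (nowhereZero_evalFun h.ne_zero)

theorem order_eq (h : KummerRoot n D f g) (hn : n ≠ 0) (z : ℍ) :
    meromorphicOrderAt g (z : ℂ) =
      ((ellIndex Γ z * D (pointPlace Γ z) : ℤ) : WithTop ℤ) := by
  have h1 : meromorphicOrderAt (g ^ n) (z : ℂ) =
      ((ellIndex Γ z * (pointPlace Γ z).ord f : ℤ) : WithTop ℤ) := by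
    rw [meromorphicOrderAt_congr (h.pow_eq _ z.2), meromorphicOrderAt_evalFun h.ne_zero]
  rw [meromorphicOrderAt_pow (h.mero _ z.2)] at h1
  obtain ⟨k, hk⟩ := WithTop.ne_top_iff_exists.mp ((h.nowhereZero hn) _ z.2)
  rw [← hk] at h1 ⊢
  norm_cast at h1 ⊢
  rw [h.ord_eq] at h1
  refine mul_left_cancel₀ (Nat.cast_ne_zero.mpr hn : (n : ℤ) ≠ 0) ?_
  linarith

variable {χ : Γ → ℂ}

theorem multiplier_elliptic (h : KummerRoot n D f g) (hn : n ≠ 0) (hχ : HasMultiplier g χ)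
    (γ : ↥Γ) (hγ : (slMat γ).trace ^ 2 < 4) : χ γ = 1 := by
  obtain ⟨z, hfix⟩ := exists_fixed_point_of_trace_sq_lt (γ : SL(2, ℤ)) hγ
  have hsmul : (γ : SL(2, ℤ)) • z = z := by
    apply UpperHalfPlane.ext
    rw [← moeb_coe, ← mob_eq_moeb]
    exact hfix
  obtain ⟨i, -, hi⟩ := (localMonodromy z).spec _ hsmul
  have hmem : (localMonodromy z).g ^ i ∈ Γ := by
    rcases hi with hi | hi
    · rw [← hi]; exact γ.2
    · have h2 : (-1 : SL(2, ℤ)) * (γ : SL(2, ℤ)) ∈ Γ :=
        mul_mem IsCurveGroup.neg_one_mem γ.2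
      rwa [hi, neg_mul, one_mul, neg_neg] at h2
  obtain ⟨l, hl⟩ := (pow_mem_iff Γ z i).mp hmem
  have hM : (localMonodromy z).g ^ (i * ellIndex Γ z) = 1 ∨
      (localMonodromy z).g ^ (i * ellIndex Γ z) = -1 := by
    rw [hl, show (affineSheets Γ z).ram (baseCoset Γ) * l * ellIndex Γ z =
      (localMonodromy z).M * l by rw [← ellIndex_mul_ram Γ z]; ring, pow_mul]
    rcases (localMonodromy z).pow_M with h1 | h1 <;> rw [h1]
    · exact Or.inl (one_pow l)
    · exact neg_one_pow_eq_or (SL(2, ℤ)) l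
  have he : slMat (γ ^ ellIndex Γ z) = 1 ∨ slMat (γ ^ ellIndex Γ z) = -1 := by
    have h3 : ((γ : SL(2, ℤ)) ^ ellIndex Γ z) = 1 ∨ ((γ : SL(2, ℤ)) ^ ellIndex Γ z) = -1 := by
      rcases hi with hi | hi <;> rw [hi]
      · rwa [← pow_mul]
      · rw [neg_pow, ← pow_mul]
        rcases neg_one_pow_eq_or (SL(2, ℤ)) (ellIndex Γ z) with h1 | h1 <;> rw [h1] <;>
          rcases hM with h2 | h2 <;> rw [h2] <;> simp
    show (((γ ^ ellIndex Γ z : Γ) : SL(2, ℤ)) : M₂) = 1 ∨ _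
    rcases h3 with h3 | h3
    · left; rw [SubmonoidClass.coe_pow, h3]; rfl
    · right; rw [slMat, SubmonoidClass.coe_pow, h3]; simp
  exact hχ.eq_one_of_fixed h.mero z.2 hfix he (h.order_eq hn z) (dvd_mul_right _ _)

theorem multiplier_parabolic (h : KummerRoot n D f g) (hn : n ≠ 0) (hχ : HasMultiplier g χ)
    (γ : ↥Γ) (hγ : (slMat γ).trace ^ 2 = 4) : χ γ = 1 := by
  obtain ⟨δ, j, hj⟩ := FermatAgent.ModCurveGroup.exists_conj_T_zpow hγ
  have hγeq : (γ : SL(2, ℤ)) = δ * ModularGroup.T ^ j * δ⁻¹ ∨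
      (γ : SL(2, ℤ)) = -(δ * ModularGroup.T ^ j * δ⁻¹) := by
    rcases hj with hj | hj
    · left; rw [← hj]; group
    · right
      rw [← neg_neg (ModularGroup.T ^ j), ← hj]
      simp [mul_assoc]
  have hmem : δ * ModularGroup.T ^ j * δ⁻¹ ∈ Γ := by
    rcases hγeq with h1 | h1
    · rw [← h1]; exact γ.2
    · have h2 : (-1 : SL(2, ℤ)) * (γ : SL(2, ℤ)) ∈ Γ :=
        mul_mem IsCurveGroup.neg_one_mem γ.2
      rwa [h1, neg_mul, one_mul, neg_neg] at h2
  have hwj : (cuspWidth Γ δ : ℤ) ∣ j := by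
    rw [← Int.dvd_natAbs]
    refine Int.natCast_dvd_natCast.mpr ((conj_T_pow_mem_iff Γ δ j.natAbs).mp ?_)
    rcases j.natAbs_eq with h1 | h1
    · rw [h1, zpow_natCast] at hmem; exact hmem
    · rw [h1, zpow_neg, zpow_natCast] at hmem
      have h2 := inv_mem hmem
      rwa [mul_inv_rev, mul_inv_rev, inv_inv, inv_inv, ← mul_assoc] at h2
  -- the translation by `j` after conjugating
  have hdet : 0 < (δ : M₂).det := by simp
  have hmob : ∀ w : ℂ, 0 < w.im →
      mob (slMat γ) (mob (δ : M₂) w) = mob (δ : M₂) (w + (j : ℝ)) := by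
    intro w hw
    rw [← mob_mul _ _ hdet.ne' hw]
    have hT : mob ((ModularGroup.T ^ j : SL(2, ℤ)) : M₂) w = w + (j : ℝ) := by
      rw [ModularGroup.coe_T_zpow]
      simp [mob]
    rw [← hT, ← mob_mul _ _ (by simp : ((ModularGroup.T ^ j : SL(2, ℤ)) : M₂).det ≠ 0) hw,
      ← Matrix.SpecialLinearGroup.coe_mul, ← Matrix.SpecialLinearGroup.coe_mul]
    rcases hγeq with h1 | h1 <;> rw [h1]
    · rw [inv_mul_cancel_right]
    · rw [neg_mul, inv_mul_cancel_right, Matrix.SpecialLinearGroup.coe_neg, mob_neg]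
  obtain ⟨l, hl⟩ := hwj
  have hw0 : (cuspWidth Γ δ : ℤ) ≠ 0 := Int.natCast_ne_zero.mpr (cuspWidth_pos Γ δ).ne'
  obtain ⟨k, hk⟩ := cuspWidth_dvd Γ δ
  have hord : ordCusp Γ δ f = (n : ℤ) * ((k : ℤ) * D (cuspPlace Γ δ)) := by
    refine mul_left_cancel₀ hw0 ?_
    rw [ordCusp_eq, h.ord_eq]
    have hkZ : (cuspPeriod Γ : ℤ) = (cuspWidth Γ δ : ℤ) * (k : ℤ) := by exact_mod_cast hk
    linear_combination ((n : ℤ) * D (cuspPlace Γ δ)) * hkZ
  have htr : GermEq (fun w => (g ∘ mob (δ : M₂)) (w + (j : ℝ))) (g ∘ mob (δ : M₂)) := by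
    refine root_translate_eq hn (h := cuspPeriod Γ) (Y := 0) (Nat.cast_pos.mpr (NeZero.pos (cuspPeriod Γ)))
      (f := evalFun f ∘ mob (δ : M₂)) (G := evalAtCusp δ f) (meromorphicOn_comp_mob h.mero hdet)
      ?_ (fun w hw => evalFun_mob_eq_evalAtCusp δ f hw) (meromorphicAt_evalAtCusp δ f)
      (by rw [meromorphicOrderAt_evalAtCusp δ h.ne_zero, hord]) ?_
      ⟨l * D (cuspPlace Γ δ), by
        have hkR : (cuspPeriod Γ : ℝ) = (cuspWidth Γ δ : ℕ) * (k : ℕ) := by exact_mod_cast hk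
        rw [hl, hkR]
        push_cast
        ring⟩
    · refine (GermEq.of_eqOn fun w hw => ?_).trans (h.pow_eq.comp_mob hdet)
      rfl
    · filter_upwards [self_mem_nhdsWithin,
        ((Periodic.invQParam_tendsto (Nat.cast_pos.mpr (NeZero.pos (cuspPeriod Γ)) : (0 : ℝ) < cuspPeriod Γ))).eventually
          (preimage_mem_comap (Ioi_mem_atTop (0 : ℝ)))] with q hq hq'
      have hw : 0 < (Periodic.invQParam (cuspPeriod Γ : ℝ) q).im := hq'
      have hqw : Periodic.qParam (cuspPeriod Γ : ℝ) (Periodic.invQParam (cuspPeriod Γ : ℝ) q) = q :=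
        Periodic.qParam_right_inv (Nat.cast_ne_zero.mpr (NeZero.ne (cuspPeriod Γ))) hq
      have h2 : Periodic.qParam (cuspPeriod Γ : ℝ) (Periodic.invQParam (cuspPeriod Γ : ℝ) q + (j : ℝ)) =
          Complex.exp (2 * Real.pi * Complex.I * ((j : ℝ) : ℂ) / ((cuspPeriod Γ : ℝ) : ℂ)) * q := by
        conv_rhs => rw [← hqw]
        rw [Periodic.qParam, Periodic.qParam, ← Complex.exp_add]
        congr 1
        ring
      have h3 : 0 < (Periodic.invQParam (cuspPeriod Γ : ℝ) q + (j : ℝ)).im := by simpa using hw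
      rw [← h2, ← evalFun_mob_eq_evalAtCusp δ f h3, ← hmob _ hw,
        evalFun_mob_of_mem f γ (mob_mem hdet hw), evalFun_mob_eq_evalAtCusp δ f hw, hqw]
  have hg := h.nowhereZero hn
  refine const_unique (meromorphicOn_comp_mob h.mero hdet) (hg.comp_mob hdet)
    (((hχ γ).comp_mob hdet).symm.trans ?_)
  refine ((GermEq.of_eqOn fun w hw => ?_).trans htr).trans (GermEq.of_eqOn fun w _ => (one_mul _).symm)
  show g (mob (slMat γ) (mob (δ : M₂) w)) = g (mob (δ : M₂) (w + (j : ℝ)))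
  rw [hmob w hw]

end KummerRoot

end FermatAgent.DeligneSerre.Curves
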