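import Fermat.Agent.DeligneSerre.X1.Kummer.Descend
import Fermat.Agent.DeligneSerre.X1.Kummer.Root
import Fermat.Agent.DeligneSerre.X1.Kummer.Char
import Fermat.Agent.DeligneSerre.X1.KummerGroup
import Fermat.Agent.ModCurve.Torsion.KummerChar

/-!
# The Kummer isomorphism over `ℂ`

A function all of whose orders are divisible by `n` has an `n`-th root on the upper half plane;
its multiplier identifies the Kummer group with the homomorphisms `Γ → ℤ/n` killing elliptic and
parabolic elements.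
-/

set_option autoImplicit false

noncomputable section

open scoped MatrixGroups
open UpperHalfPlane hiding I
open Filter Topology AlgebraicCurve

namespace FermatAgent.DeligneSerre.Curves

open FermatAgent.ModCurveTorsion (GermEq NowhereZero slMat HasMultiplier exists_multiplier
  nowhereZero_of_pow root_unique_halfPlane exists_meromorphic_root exists_eq_stdAddChar
  stdAddChar_pow_self eventuallyEq_codiscreteWithin_iff)
open FermatAgent.ModCurveGroup (KillsEP)
open FermatAgent.DeligneSerre.X1 (kummerSel kummerPow KummerV kummerMk kummerMk_surjective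
  kummerMk_eq_one)

local notation "ℍo" => UpperHalfPlane.upperHalfPlaneSet

variable {Γ : Subgroup SL(2, ℤ)} [IsCurveGroup Γ] {n : ℕ} [NeZero n]

/-- `φ` is the multiplier of an `n`-th root of `y`. -/
def IsKummerMult (n : ℕ) [NeZero n] (y : (FieldOf Γ)ˣ) (φ : Additive Γ →+ ZMod n) : Prop :=
  y ∈ kummerSel ℂ (FieldOf Γ) n ∧ ∃ g : ℂ → ℂ, MeromorphicOn g ℍo ∧
    GermEq (g ^ n) (evalFun (y : FieldOf Γ)) ∧
      HasMultiplier g fun γ => ZMod.stdAddChar (φ (Additive.ofMul γ))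

theorem exists_root_of_mem_kummerSel {y : (FieldOf Γ)ˣ} (hy : y ∈ kummerSel ℂ (FieldOf Γ) n) :
    ∃ g : ℂ → ℂ, MeromorphicOn g ℍo ∧ GermEq (g ^ n) (evalFun (y : FieldOf Γ)) := by
  obtain ⟨g, hg, hgn⟩ := exists_meromorphic_root (NeZero.ne n)
    (meromorphicOn_evalFun (y : FieldOf Γ)) (nowhereZero_evalFun y.ne_zero) fun z hz => by
      obtain ⟨k, hk⟩ := hy (pointPlace Γ ⟨z, hz⟩)
      refine ⟨ellIndex Γ ⟨z, hz⟩ * k, ?_⟩
      have h := meromorphicOrderAt_evalFun y.ne_zero (⟨z, hz⟩ : ℍ)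
      rw [hk] at h
      rw [show meromorphicOrderAt (evalFun (y : FieldOf Γ)) z = _ from h, WithTop.untop₀_coe]
      ring
  exact ⟨g, hg,
    (eventuallyEq_codiscreteWithin_iff UpperHalfPlane.isOpen_upperHalfPlaneSet).mp hgn⟩

theorem exists_isKummerMult {y : (FieldOf Γ)ˣ} (hy : y ∈ kummerSel ℂ (FieldOf Γ) n) :
    ∃ φ, IsKummerMult n y φ := by
  obtain ⟨g, hg, hgn⟩ := exists_root_of_mem_kummerSel hy
  have hg0 := nowhereZero_of_pow (NeZero.ne n) hgn (nowhereZero_evalFun y.ne_zero)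
  obtain ⟨χ, hχ, hχn⟩ := exists_multiplier (Γ := Γ) (NeZero.ne n) hg hgn
    (nowhereZero_evalFun y.ne_zero) (evalFun_invariant (y : FieldOf Γ))
  choose a ha using fun γ => exists_eq_stdAddChar (n := n) (hχn γ)
  let φ : Additive Γ →+ ZMod n :=
    AddMonoidHom.mk' (fun γ => a γ.toMul) fun γ δ => ZMod.injective_stdAddChar (by
      rw [AddChar.map_add_eq_mul, ha, ha, ha, ← hχ.map_mul hg hg0]
      rfl)
  refine ⟨φ, hy, g, hg, hgn, ?_⟩
  convert hχ using 1
  funext γ
  exact ha γ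

theorem IsKummerMult.unique {y : (FieldOf Γ)ˣ} {φ ψ : Additive Γ →+ ZMod n}
    (h : IsKummerMult n y φ) (h' : IsKummerMult n y ψ) : φ = ψ := by
  obtain ⟨-, g, hg, hgn, hm⟩ := h
  obtain ⟨-, g', hg', hgn', hm'⟩ := h'
  have hg0' := nowhereZero_of_pow (NeZero.ne n) hgn' (nowhereZero_evalFun y.ne_zero)
  have hg0 := nowhereZero_of_pow (NeZero.ne n) hgn (nowhereZero_evalFun y.ne_zero)
  obtain ⟨ζ, -, hζ⟩ := root_unique_halfPlane (NeZero.ne n) hg hg' hg0' (hgn.trans hgn'.symm)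
  have h1 := hm.unique hg hg0 ((hm'.const_mul ζ).congr hζ.symm)
  refine AddMonoidHom.ext fun γ => ZMod.injective_stdAddChar ?_
  exact congrFun h1 γ.toMul

theorem IsKummerMult.mul {x y : (FieldOf Γ)ˣ} {φ ψ : Additive Γ →+ ZMod n}
    (hx : IsKummerMult n x φ) (hy : IsKummerMult n y ψ) : IsKummerMult n (x * y) (φ + ψ) := by
  obtain ⟨hxs, g, hg, hgn, hm⟩ := hx
  obtain ⟨hys, g', hg', hgn', hm'⟩ := hy
  refine ⟨mul_mem hxs hys, g * g', fun z hz => (hg z hz).mul (hg' z hz), ?_, ?_⟩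
  · rw [mul_pow, Units.val_mul]
    exact (hgn.mul hgn').trans (evalFun_mul _ _).symm
  · convert hm.mul hm' using 1
    funext γ
    simp [AddChar.map_add_eq_mul]

theorem isKummerMult_pow_self (w : (FieldOf Γ)ˣ) : IsKummerMult n (w ^ n) 0 := by
  refine ⟨fun P => ⟨P.ord (w : FieldOf Γ), by rw [Units.val_pow_eq_pow_val, ← zpow_natCast,
    Place.ord_zpow]⟩, evalFun (w : FieldOf Γ), meromorphicOn_evalFun _, ?_, ?_⟩
  · rw [Units.val_pow_eq_pow_val]
    exact (evalFun_pow _ n).symm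
  · convert HasMultiplier.of_invariant (evalFun_invariant (w : FieldOf Γ)) using 1
    funext γ
    simp

theorem IsKummerMult.exists_pow_eq {y : (FieldOf Γ)ˣ} (hy : IsKummerMult n y 0) :
    ∃ w : (FieldOf Γ)ˣ, w ^ n = y := by
  obtain ⟨-, g, hg, hgn, hm⟩ := hy
  obtain ⟨u, hu⟩ := exists_evalFun_eq (NeZero.ne n) y.ne_zero hg hgn fun γ =>
    (hm γ).trans (GermEq.of_eqOn fun w _ => by simp)
  have hfu : (y : FieldOf Γ) = u ^ n :=
    evalFun_injective ((hgn.symm.trans (hu.symm.pow n)).trans (evalFun_pow u n).symm)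
  have hu0 : u ≠ 0 := fun h => y.ne_zero (by rw [hfu, h, zero_pow (NeZero.ne n)])
  exact ⟨Units.mk0 u hu0, Units.ext (by simp [hfu])⟩

theorem IsKummerMult.killsEP {y : (FieldOf Γ)ˣ} {φ : Additive Γ →+ ZMod n}
    (hy : IsKummerMult n y φ) : KillsEP Γ φ := by
  obtain ⟨hys, g, hg, hgn, hm⟩ := hy
  have hroot : KummerRoot n ((FermatAgent.Curve.divisorOf (K := ℂ) (y : FieldOf Γ)).mapRange
      (· / (n : ℤ)) (Int.zero_ediv _)) (y : FieldOf Γ) g :=
    ⟨y.ne_zero, fun v => by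
      rw [Finsupp.mapRange_apply, FermatAgent.Curve.divisorOf_apply,
        Int.mul_ediv_cancel' (hys v)], hg, hgn⟩
  intro γ hγ
  refine ZMod.injective_stdAddChar ?_
  rw [AddChar.map_zero_eq_one]
  rcases lt_or_eq_of_le hγ with h | h
  · exact hroot.multiplier_elliptic (NeZero.ne n) hm γ h
  · exact hroot.multiplier_parabolic (NeZero.ne n) hm γ h

theorem exists_isKummerMult_of_killsEP {φ : Additive Γ →+ ZMod n} (hφ : KillsEP Γ φ) :
    ∃ y, IsKummerMult n y φ := by
  have hχ : IsEPChar (Γ := Γ) fun γ => ZMod.stdAddChar (φ (Additive.ofMul γ)) :=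
    { map_mul := fun γ δ => by rw [ofMul_mul, map_add, AddChar.map_add_eq_mul]
      eq_one := fun γ hγ => by rw [hφ γ hγ, AddChar.map_zero_eq_one]
      norm_eq := fun γ => AddChar.norm_apply _ _ }
  obtain ⟨f, g, hf, hdvd, hg, hgn, hm⟩ :=
    hχ.exists_kummerMult (NeZero.ne n) fun γ => stdAddChar_pow_self _
  exact ⟨Units.mk0 f hf, fun v => hdvd v, g, hg, hgn, hm⟩

variable (Γ n)

/-- The multiplier of a root, on `kummerSel`. -/
def selHom : kummerSel ℂ (FieldOf Γ) n →* Multiplicative (Additive Γ →+ ZMod n) :=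
  MonoidHom.mk' (fun y => Multiplicative.ofAdd (exists_isKummerMult y.2).choose) fun x y =>
    congrArg Multiplicative.ofAdd <| (exists_isKummerMult (x * y).2).choose_spec.unique
      ((exists_isKummerMult x.2).choose_spec.mul (exists_isKummerMult y.2).choose_spec)

theorem isKummerMult_selHom (y : kummerSel ℂ (FieldOf Γ) n) :
    IsKummerMult n (y : (FieldOf Γ)ˣ) (selHom Γ n y).toAdd :=
  (exists_isKummerMult y.2).choose_spec

/-- The Kummer map. -/
def kummerHom : KummerV ℂ (FieldOf Γ) n →* Multiplicative (Additive Γ →+ ZMod n) :=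
  QuotientGroup.lift (kummerPow ℂ (FieldOf Γ) n) (selHom Γ n) fun y hy => by
    obtain ⟨w, hw⟩ := Subgroup.mem_subgroupOf.mp hy
    have h1 := isKummerMult_selHom Γ n y
    have h2 : IsKummerMult n (y : (FieldOf Γ)ˣ) 0 := hw ▸ isKummerMult_pow_self w
    exact congrArg Multiplicative.ofAdd (h1.unique h2)

variable {Γ n}

theorem isKummerMult_kummerHom (y : kummerSel ℂ (FieldOf Γ) n) :
    IsKummerMult n (y : (FieldOf Γ)ˣ) (kummerHom Γ n (kummerMk ℂ (FieldOf Γ) n y)).toAdd :=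
  isKummerMult_selHom Γ n y

theorem kummerHom_eq_of_isKummerMult (y : kummerSel ℂ (FieldOf Γ) n)
    {φ : Additive Γ →+ ZMod n} (h : IsKummerMult n (y : (FieldOf Γ)ˣ) φ) :
    kummerHom Γ n (kummerMk ℂ (FieldOf Γ) n y) = Multiplicative.ofAdd φ :=
  congrArg Multiplicative.ofAdd ((isKummerMult_kummerHom y).unique h)

variable (Γ n) in
theorem kummerHom_injective : Function.Injective (kummerHom Γ n) := by
  refine (injective_iff_map_eq_one _).mpr fun x hx => ?_
  obtain ⟨y, rfl⟩ := kummerMk_surjective x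
  have h := isKummerMult_kummerHom y
  rw [hx] at h
  exact kummerMk_eq_one.mpr (IsKummerMult.exists_pow_eq h)

theorem mem_range_kummerHom_iff {φ : Additive Γ →+ ZMod n} :
    Multiplicative.ofAdd φ ∈ (kummerHom Γ n).range ↔ KillsEP Γ φ := by
  constructor
  · rintro ⟨x, hx⟩
    obtain ⟨y, rfl⟩ := kummerMk_surjective x
    have h := isKummerMult_kummerHom y
    rw [hx] at h
    exact h.killsEP
  · intro hφ
    obtain ⟨y, hy⟩ := exists_isKummerMult_of_killsEP hφ
    exact ⟨kummerMk ℂ (FieldOf Γ) n ⟨y, hy.1⟩, kummerHom_eq_of_isKummerMult ⟨y, hy.1⟩ hy⟩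

end FermatAgent.DeligneSerre.Curves
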