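import Fermat.Agent.DeligneSerre.X1.Kummer.Main
import Fermat.Agent.DeligneSerre.X1.Field

/-!
# The Kummer isomorphism for `X₁(M)`
-/

set_option autoImplicit false
set_option synthInstance.maxHeartbeats 200000

noncomputable section

open UpperHalfPlane hiding I
open scoped MatrixGroups

namespace FermatAgent.DeligneSerre.Curves

open FermatAgent.ModCurveGroup (KillsEP)
open FermatAgent.DeligneSerre.X1 (levelRingOf gam x1FieldC T_mem_gam neg_one_mem_gam x1Gen
  genField_eq_x1FieldC qLaurent_mem_x1FieldC exists_toX1_div toX1 coe_toX1 kummerSel KummerV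
  kummerMk)
open FermatAgent.ModFun (qLaurent)

variable {M : ℕ} [NeZero M]

theorem isCurveGroup_gam (hM : 5 ≤ M) : IsCurveGroup (gam M) where
  T_mem := T_mem_gam M
  neg_one_mem := neg_one_mem_gam M
  finiteIndex := inferInstance
  nonempty_ratGen := ⟨x1Gen hM⟩

theorem fieldOf_gam_eq [IsCurveGroup (gam M)] (hM : 5 ≤ M) :
    FieldOf (gam M) = x1FieldC ℂ M := by
  refine le_antisymm ?_ fun x hx => ?_
  · rw [FieldOf, IntermediateField.adjoin_le_iff]
    rintro _ ⟨f, rfl⟩
    exact qLaurent_mem_x1FieldC hM f.2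
  · obtain ⟨a, b, -, hab⟩ := exists_toX1_div hM ⟨x, hx⟩
    have h : x = qLaurent (a : ℍ → ℂ) / qLaurent (b : ℍ → ℂ) := congrArg Subtype.val hab
    rw [h]
    exact div_mem (toField (gam M) a).2 (toField (gam M) b).2

theorem coe_equivOfEq {K L : Type*} [Field K] [Field L] [Algebra K L]
    {E F : IntermediateField K L} (h : E = F) (x : E) :
    ((IntermediateField.equivOfEq h x : F) : L) = (x : L) := by subst h; rfl

/-- The two models of the function field over `ℂ`. -/
def fieldOfGamEquiv [IsCurveGroup (gam M)] (hM : 5 ≤ M) :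
    FieldOf (gam M) ≃ₐ[ℂ] x1FieldC ℂ M :=
  IntermediateField.equivOfEq (fieldOf_gam_eq hM)

theorem coe_fieldOfGamEquiv [IsCurveGroup (gam M)] (hM : 5 ≤ M) (f : FieldOf (gam M)) :
    (fieldOfGamEquiv hM f : LaurentSeries ℂ) = (f : LaurentSeries ℂ) :=
  coe_equivOfEq _ _

theorem fieldOfGamEquiv_toField [IsCurveGroup (gam M)] (hM : 5 ≤ M)
    (f : levelRingOf (gam M)) : fieldOfGamEquiv hM (toField (gam M) f) = toX1 hM f :=
  Subtype.ext (by rw [coe_fieldOfGamEquiv, coe_toField, coe_toX1])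

section Transport

variable {Γ : Subgroup SL(2, ℤ)} [IsCurveGroup Γ] (n : ℕ) [NeZero n]
  {E : IntermediateField ℂ (LaurentSeries ℂ)} (h : FieldOf Γ = E)

/-- The Kummer map for a field equal to `FieldOf Γ`. -/
irreducible_def kummerHomOf : KummerV ℂ E n →* Multiplicative (Additive Γ →+ ZMod n) :=
  h ▸ kummerHom Γ n

theorem kummerHomOf_injective : Function.Injective (kummerHomOf n h) := by
  rw [kummerHomOf_def]
  subst h
  exact kummerHom_injective Γ n

theorem mem_range_kummerHomOf_iff {φ : Additive Γ →+ ZMod n} :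
    Multiplicative.ofAdd φ ∈ (kummerHomOf n h).range ↔ KillsEP Γ φ := by
  rw [kummerHomOf_def]
  subst h
  exact mem_range_kummerHom_iff

theorem isKummerMult_kummerHomOf (y : kummerSel ℂ E n) :
    IsKummerMult n (Units.map (IntermediateField.equivOfEq h.symm).toAlgHom.toRingHom.toMonoidHom
      (y : Eˣ)) (kummerHomOf n h (kummerMk ℂ E n y)).toAdd := by
  rw [kummerHomOf_def]
  subst h
  have e : Units.map (IntermediateField.equivOfEq (rfl : FieldOf Γ = FieldOf Γ)).toAlgHom.toRingHom.toMonoidHom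
      (y : (FieldOf Γ)ˣ) = (y : (FieldOf Γ)ˣ) := Units.ext rfl
  exact e.symm ▸ isKummerMult_kummerHom y

end Transport

/-- The Kummer map of `X₁(M)`. -/
def x1KummerHom [IsCurveGroup (gam M)] (hM : 5 ≤ M) (n : ℕ) [NeZero n] :
    KummerV ℂ (x1FieldC ℂ M) n →* Multiplicative (Additive (gam M) →+ ZMod n) :=
  kummerHomOf n (fieldOf_gam_eq hM)

theorem x1KummerHom_injective [IsCurveGroup (gam M)] (hM : 5 ≤ M) (n : ℕ) [NeZero n] :
    Function.Injective (x1KummerHom hM n) := kummerHomOf_injective n _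

theorem mem_range_x1KummerHom_iff [IsCurveGroup (gam M)] (hM : 5 ≤ M) (n : ℕ) [NeZero n]
    {φ : Additive (gam M) →+ ZMod n} :
    Multiplicative.ofAdd φ ∈ (x1KummerHom hM n).range ↔ KillsEP (gam M) φ :=
  mem_range_kummerHomOf_iff n _

theorem isKummerMult_x1KummerHom [IsCurveGroup (gam M)] (hM : 5 ≤ M) (n : ℕ) [NeZero n]
    (y : kummerSel ℂ (x1FieldC ℂ M) n) :
    IsKummerMult n (Units.map
        (IntermediateField.equivOfEq (fieldOf_gam_eq hM).symm).toAlgHom.toRingHom.toMonoidHom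
        (y : (x1FieldC ℂ M)ˣ))
      (x1KummerHom hM n (kummerMk ℂ (x1FieldC ℂ M) n y)).toAdd :=
  isKummerMult_kummerHomOf n (fieldOf_gam_eq hM) y

end FermatAgent.DeligneSerre.Curves
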