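import Fermat.Agent.DeligneSerre.X1.Points.Places
import Fermat.Agent.ModCurve.Torsion.EvalFun

/-!
# Elements of the function field as meromorphic functions on the upper half plane
-/

set_option autoImplicit false

noncomputable section

open scoped MatrixGroups
open UpperHalfPlane hiding I
open Filter Topology Function

namespace FermatAgent.DeligneSerre.Curves

open FermatAgent.ModCurve.Points (MeroGerm ValTarget moeb meromorphicAt_cuspFunction
  cuspFunction_qParam)
open FermatAgent.ModFun (dil)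
open FermatAgent.Periods (mob)
open FermatAgent.ModCurveTorsion (GermEq NowhereZero slMat mob_eq_moeb ofComplex_mob meroGerm_mk_inv)
open FermatAgent.DeligneSerre.X1 (levelRingOf)

local notation "ℍo" => UpperHalfPlane.upperHalfPlaneSet

variable {Γ : Subgroup SL(2, ℤ)} [IsCurveGroup Γ]

/-- Numerator of a chosen presentation. -/
def evalNum (f : FieldOf Γ) : levelRingOf Γ := (exists_div Γ f).choose

/-- Denominator of a chosen presentation. -/
def evalDen (f : FieldOf Γ) : levelRingOf Γ := (exists_div Γ f).choose_spec.choose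

theorem evalDen_ne_zero (f : FieldOf Γ) : evalDen f ≠ 0 :=
  (exists_div Γ f).choose_spec.choose_spec.1

theorem eq_evalNum_div_evalDen (f : FieldOf Γ) :
    f = toField Γ (evalNum f) / toField Γ (evalDen f) :=
  (exists_div Γ f).choose_spec.choose_spec.2

/-- An element of the function field as a function on `ℂ` (junk below the real axis). -/
def evalFun (f : FieldOf Γ) : ℂ → ℂ := fun w => evalC 1 (evalNum f) w / evalC 1 (evalDen f) w

theorem meromorphicAt_evalFun (f : FieldOf Γ) (z : ℍ) : MeromorphicAt (evalFun f) (z : ℂ) :=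
  (analyticAt_evalC 1 _ z).meromorphicAt.div (analyticAt_evalC 1 _ z).meromorphicAt

theorem meromorphicOn_evalFun (f : FieldOf Γ) : MeromorphicOn (evalFun f) ℍo :=
  fun z hz => meromorphicAt_evalFun f ⟨z, hz⟩

theorem pointHom_eq_mk (f : FieldOf Γ) (z : ℍ) :
    pointHom Γ z 1 f = MeroGerm.mk (evalFun f) (meromorphicAt_evalFun f z) := by
  conv_lhs => rw [eq_evalNum_div_evalDen f]
  rw [map_div₀, pointHom_toField, pointHom_toField, germHom_apply, germHom_apply, div_eq_mul_inv,
    meroGerm_mk_inv, MeroGerm.mk_mul, MeroGerm.mk_eq_mk]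
  exact Eventually.of_forall fun w => (div_eq_mul_inv _ _).symm

theorem germEq_evalFun_of_forall {f : FieldOf Γ} {F : ℂ → ℂ} (hF : MeromorphicOn F ℍo)
    (h : ∀ z : ℍ, pointHom Γ z 1 f = MeroGerm.mk F (hF z z.2)) : GermEq (evalFun f) F :=
  fun z hz => by
    have := h ⟨z, hz⟩
    rw [pointHom_eq_mk, MeroGerm.mk_eq_mk] at this
    exact this

theorem evalFun_mul (f g : FieldOf Γ) : GermEq (evalFun (f * g)) (evalFun f * evalFun g) := by
  refine germEq_evalFun_of_forall
    (fun z hz => (meromorphicOn_evalFun f z hz).mul (meromorphicOn_evalFun g z hz)) fun z => ?_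
  rw [map_mul, pointHom_eq_mk, pointHom_eq_mk, MeroGerm.mk_mul]

theorem evalFun_inv (f : FieldOf Γ) : GermEq (evalFun f⁻¹) (evalFun f)⁻¹ := by
  refine germEq_evalFun_of_forall (fun z hz => (meromorphicOn_evalFun f z hz).inv) fun z => ?_
  rw [map_inv₀, pointHom_eq_mk, meroGerm_mk_inv]

theorem evalFun_algebraMap (c : ℂ) :
    GermEq (evalFun (algebraMap ℂ (FieldOf Γ) c)) fun _ => c := by
  refine germEq_evalFun_of_forall (fun z _ => MeromorphicAt.const c z) fun z => ?_
  rw [AlgHom.commutes, MeroGerm.algebraMap_eq]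

theorem evalFun_one : GermEq (evalFun (1 : FieldOf Γ)) fun _ => 1 := by
  simpa using evalFun_algebraMap (Γ := Γ) 1

theorem evalFun_pow (f : FieldOf Γ) (n : ℕ) : GermEq (evalFun (f ^ n)) (evalFun f ^ n) := by
  induction n with
  | zero =>
    rw [pow_zero, pow_zero]
    exact evalFun_one
  | succ n ih =>
    rw [pow_succ, pow_succ]
    exact (evalFun_mul _ _).trans (ih.mul (GermEq.refl _))

theorem evalFun_toField (a : levelRingOf Γ) : GermEq (evalFun (toField Γ a)) (evalC 1 a) := by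
  refine germEq_evalFun_of_forall
    (fun z hz => (analyticAt_evalC 1 a ⟨z, hz⟩).meromorphicAt) fun z => ?_
  rw [pointHom_toField, germHom_apply]

theorem nowhereZero_evalFun {f : FieldOf Γ} (hf : f ≠ 0) : NowhereZero (evalFun f) := by
  intro z hz htop
  have h : pointHom Γ ⟨z, hz⟩ 1 f = 0 := by
    rw [pointHom_eq_mk, MeroGerm.mk_eq_zero_iff]
    exact htop
  exact hf ((pointHom Γ ⟨z, hz⟩ 1).injective (h.trans (map_zero _).symm))

theorem evalFun_injective {f g : FieldOf Γ} (h : GermEq (evalFun f) (evalFun g)) : f = g := by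
  refine (pointHom Γ UpperHalfPlane.I 1).injective ?_
  show pointHom Γ UpperHalfPlane.I 1 f = pointHom Γ UpperHalfPlane.I 1 g
  rw [pointHom_eq_mk, pointHom_eq_mk, MeroGerm.mk_eq_mk]
  exact h _ UpperHalfPlane.I.2

theorem evalFun_mob_of_mem (f : FieldOf Γ) (γ : Γ) {w : ℂ} (hw : 0 < w.im) :
    evalFun f (mob (slMat γ) w) = evalFun f w := by
  simp only [evalFun, evalC, one_smul, ofComplex_mob (γ : SL(2, ℤ)) hw, level_smul _ γ.2]

theorem evalFun_invariant (f : FieldOf Γ) (γ : Γ) :
    GermEq (evalFun f ∘ mob (slMat γ)) (evalFun f) :=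
  GermEq.of_eqOn fun _ hw => evalFun_mob_of_mem f γ hw

theorem meromorphicOrderAt_evalFun {f : FieldOf Γ} (hf : f ≠ 0) (z : ℍ) :
    meromorphicOrderAt (evalFun f) (z : ℂ) =
      ((ellIndex Γ z * (pointPlace Γ z).ord f : ℤ) : WithTop ℤ) := by
  rw [← ordAt_eq, ordAt]
  have hne : pointHom Γ z 1 f ≠ 0 := fun h0 =>
    hf ((pointHom Γ z 1).injective (h0.trans (map_zero _).symm))
  rw [ValTarget.coe_ordZ _ hne, pointHom_eq_mk]
  exact (MeroGerm.ord_mk _ _).symm

/-- The expansion of `f` at the cusp `h∞`, in the parameter `exp (2πi z / Γ)`. -/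
def evalAtCusp (h : SL(2, ℤ)) (f : FieldOf Γ) : ℂ → ℂ := fun q =>
  cuspFunction 1 (evalCusp h (evalNum f)) q / cuspFunction 1 (evalCusp h (evalDen f)) q

theorem meromorphicAt_evalAtCusp (h : SL(2, ℤ)) (f : FieldOf Γ) :
    MeromorphicAt (evalAtCusp h f) 0 :=
  (meromorphicAt_cuspFunction (evalCusp_mem h _)).div (meromorphicAt_cuspFunction (evalCusp_mem h _))

theorem cuspHom_eq_mk (h : SL(2, ℤ)) (f : FieldOf Γ) :
    cuspHom Γ h f = MeroGerm.mk (evalAtCusp h f) (meromorphicAt_evalAtCusp h f) := by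
  conv_lhs => rw [eq_evalNum_div_evalDen f]
  rw [map_div₀, cuspHom_toField, cuspHom_toField, cuspGermHom_apply, cuspGermHom_apply,
    div_eq_mul_inv, meroGerm_mk_inv, MeroGerm.mk_mul, MeroGerm.mk_eq_mk]
  exact Eventually.of_forall fun w => (div_eq_mul_inv _ _).symm

theorem meromorphicOrderAt_evalAtCusp (h : SL(2, ℤ)) {f : FieldOf Γ} (hf : f ≠ 0) :
    meromorphicOrderAt (evalAtCusp h f) 0 = ((ordCusp Γ h f : ℤ) : WithTop ℤ) := by
  rw [ordCusp]
  have hne : cuspHom Γ h f ≠ 0 := fun h0 =>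
    hf ((cuspHom Γ h).injective (h0.trans (map_zero _).symm))
  rw [ValTarget.coe_ordZ _ hne, cuspHom_eq_mk]
  exact (MeroGerm.ord_mk _ _).symm

theorem evalFun_mob_eq_evalAtCusp (h : SL(2, ℤ)) (f : FieldOf Γ) {w : ℂ} (hw : 0 < w.im) :
    evalFun f (mob (h : Matrix (Fin 2) (Fin 2) ℤ) w) =
      evalAtCusp h f (Periodic.qParam (cuspPeriod Γ) w) := by
  have hN : (0 : ℝ) < cuspPeriod Γ := Nat.cast_pos.2 (NeZero.pos (cuspPeriod Γ))
  let σ : ℍ := ⟨w / cuspPeriod Γ, by rw [Complex.div_natCast_im]; exact div_pos hw hN⟩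
  have hσ : dil (cuspPeriod Γ) σ = ofComplex w := by
    rw [ofComplex_apply_of_im_pos hw]
    ext
    rw [FermatAgent.ModFun.coe_dil]
    show ((cuspPeriod Γ : ℕ) : ℂ) * (w / cuspPeriod Γ) = w
    rw [mul_div_cancel₀ _ (NeZero.ne _)]
  have hq : Periodic.qParam 1 (σ : ℂ) = Periodic.qParam (cuspPeriod Γ) w := by
    show Periodic.qParam 1 (w / cuspPeriod Γ) = _
    simp only [Periodic.qParam]
    congr 1
    push_cast
    ring
  simp only [evalAtCusp, evalFun, ← hq, cuspFunction_qParam (evalCusp_mem h _), evalC, one_smul,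
    evalCusp, hσ, ofComplex_mob h hw]

end FermatAgent.DeligneSerre.Curves
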